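import Mathlib
import Fermat.Prelude.Def_ModularForm_HeckeOperator

/-!
# Level raising `f(τ) ↦ f(Nτ)` for level one forms (function level)
-/

set_option autoImplicit false

open UpperHalfPlane ModularForm CongruenceSubgroup Filter Topology
open scoped MatrixGroups Manifold ModularForm

namespace Fermat.Agent.LevelRaise

noncomputable section

/-- integer matrix decomposition `diag(N,1) γ = γ' [[A,B],[0,D]]`. -/
lemma exists_decomp_int (N : ℕ) (hN : N ≠ 0) (a b c d : ℤ) (hdet : a * d - b * c = 1) :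
    ∃ (A D : ℕ) (B x y u v : ℤ), A * D = N ∧ A = Int.gcd N c ∧ u * y - x * v = 1 ∧
      (N : ℤ) * a = u * A ∧ (N : ℤ) * b = u * B + x * D ∧ c = v * A ∧ d = v * B + y * D := by
  set g : ℕ := Int.gcd N c with hg
  have hg0 : (g : ℤ) ≠ 0 := by
    intro h
    have h' : g = 0 := by exact_mod_cast h
    rw [hg, Int.gcd_eq_zero_iff] at h'
    exact hN (by exact_mod_cast h'.1)
  obtain ⟨D', hD'⟩ : (g : ℤ) ∣ N := Int.gcd_dvd_left _ _
  obtain ⟨v, hv⟩ : (g : ℤ) ∣ c := Int.gcd_dvd_right _ _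
  obtain ⟨s, t, hbez⟩ : ∃ s t : ℤ, (g : ℤ) = N * s + c * t := ⟨_, _, Int.gcd_eq_gcd_ab _ _⟩
  have hcop1 : IsCoprime D' v := by
    refine ⟨s, t, ?_⟩
    apply mul_left_cancel₀ hg0
    rw [hD', hv] at hbez
    linear_combination -hbez
  have hcop2 : IsCoprime a v := ⟨d, -b * g, by rw [hv] at hdet; linear_combination hdet⟩
  obtain ⟨p, q, hpq⟩ := hcop1.mul_left hcop2
  have hD'pos : 0 < D' := by
    have h1 : (0 : ℤ) < N := by exact_mod_cast Nat.pos_of_ne_zero hN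
    have h2 : (0 : ℤ) < g := lt_of_le_of_ne (Int.natCast_nonneg _) hg0.symm
    rw [hD'] at h1
    exact (pos_iff_pos_of_mul_pos h1).mp h2
  have hDn : ((D'.toNat : ℕ) : ℤ) = D' := Int.toNat_of_nonneg hD'pos.le
  rw [hv] at hdet
  refine ⟨g, D'.toNat, p * N * b + q * d, -q, p, D' * a, v, ?_, rfl, ?_, ?_, ?_, ?_, ?_⟩
  · have : ((g * D'.toNat : ℕ) : ℤ) = N := by push_cast; rw [hDn, hD']
    exact_mod_cast this
  · linear_combination hpq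
  · rw [hD']; ring
  · rw [hDn]
    linear_combination (-(N:ℤ)*b) * hpq + (-q*D') * hdet + (q*v*b) * hD'
  · rw [hv]; ring
  · rw [hDn]
    linear_combination (-d)*hpq + (p*D')*hdet + (-p*v*b)*hD'

/-- the upper triangular matrix `[[A,B],[0,D]]` (junk value `1` if `A D = 0`). -/
def triMat (A D : ℕ) (B : ℤ) : GL (Fin 2) ℝ :=
  if h : (A : ℝ) * (D : ℝ) ≠ 0 then upperTriangularGL A B D h else 1

lemma val_triMat {A D : ℕ} (hA : A ≠ 0) (hD : D ≠ 0) (B : ℤ) :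
    ((triMat A D B : GL (Fin 2) ℝ) : Matrix (Fin 2) (Fin 2) ℝ) = !![(A : ℝ), (B : ℝ); 0, (D : ℝ)] := by
  have h : (A : ℝ) * (D : ℝ) ≠ 0 := mul_ne_zero (by exact_mod_cast hA) (by exact_mod_cast hD)
  simp [triMat, h]

lemma exists_decomp (N : ℕ) (hN : N ≠ 0) (γ : SL(2, ℤ)) :
    ∃ (A D : ℕ) (B : ℤ) (γ' : SL(2, ℤ)), A * D = N ∧ A = Int.gcd N (γ 1 0) ∧
      heckeDiagMatrix N * (γ : GL (Fin 2) ℝ) = (γ' : GL (Fin 2) ℝ) * triMat A D B := by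
  obtain ⟨A, D, B, x, y, u, v, hAD, hA, hdet, h1, h2, h3, h4⟩ :=
    exists_decomp_int N hN (γ 0 0) (γ 0 1) (γ 1 0) (γ 1 1) (by
      have := γ.det_coe
      rw [Matrix.det_fin_two] at this
      exact this)
  have hA0 : A ≠ 0 := by rintro rfl; simp at hAD; exact hN hAD.symm
  have hD0 : D ≠ 0 := by rintro rfl; simp at hAD; exact hN hAD.symm
  obtain ⟨γ', e00, e01, e10, e11⟩ : ∃ γ' : SL(2, ℤ), γ' 0 0 = u ∧ γ' 0 1 = x ∧ γ' 1 0 = v ∧
      γ' 1 1 = y :=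
    ⟨⟨!![u, x; v, y], by rw [Matrix.det_fin_two_of]; exact hdet⟩, rfl, rfl, rfl, rfl⟩
  refine ⟨A, D, B, γ', hAD, hA, ?_⟩
  apply Units.ext
  rw [Units.val_mul, Units.val_mul, val_heckeDiagMatrix hN, val_triMat hA0 hD0]
  ext i j
  fin_cases i <;> fin_cases j
  · simp [Matrix.mul_apply, Fin.sum_univ_two, e00]
    exact_mod_cast h1
  · simp [Matrix.mul_apply, Fin.sum_univ_two, e00, e01]
    exact_mod_cast h2
  · simp [Matrix.mul_apply, Fin.sum_univ_two, e10]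
    exact_mod_cast h3
  · simp [Matrix.mul_apply, Fin.sum_univ_two, e10, e11]
    exact_mod_cast h4


lemma det_triMat {A D : ℕ} (hA : A ≠ 0) (hD : D ≠ 0) (B : ℤ) :
    ((triMat A D B).det : ℝ) = A * D := by
  rw [Matrix.GeneralLinearGroup.val_det_apply, val_triMat hA hD, Matrix.det_fin_two_of]
  ring

lemma det_triMat_pos {A D : ℕ} (hA : A ≠ 0) (hD : D ≠ 0) (B : ℤ) :
    0 < ((triMat A D B).det : ℝ) := by
  rw [det_triMat hA hD]
  have h1 : (0 : ℝ) < A := by exact_mod_cast Nat.pos_of_ne_zero hA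
  have h2 : (0 : ℝ) < D := by exact_mod_cast Nat.pos_of_ne_zero hD
  positivity

lemma slash_triMat_apply (k : ℤ) {A D : ℕ} (hA : A ≠ 0) (hD : D ≠ 0) (B : ℤ) (f : ℍ → ℂ) (τ : ℍ) :
    (f ∣[k] triMat A D B) τ = ((A : ℂ) * D) ^ (k - 1) * (D : ℂ) ^ (-k) * f (triMat A D B • τ) := by
  have hσ : UpperHalfPlane.σ (triMat A D B) = .refl ℝ ℂ := by
    rw [UpperHalfPlane.σ, if_pos (det_triMat_pos hA hD B)]
  have hden : UpperHalfPlane.denom (triMat A D B) τ = D := by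
    simp [UpperHalfPlane.denom, val_triMat hA hD]
  rw [ModularForm.slash_apply, hσ, det_triMat hA hD, hden]
  have h1 : (0 : ℝ) ≤ (A : ℝ) * D := by positivity
  simp only [ContinuousAlgEquiv.refl_apply, abs_of_nonneg h1, Complex.ofReal_mul,
    Complex.ofReal_natCast]
  ring

lemma tendsto_triMat_smul {A D : ℕ} (hA : A ≠ 0) (hD : D ≠ 0) (B : ℤ) :
    Tendsto (fun τ : ℍ => triMat A D B • τ) atImInfty atImInfty := by
  apply tendsto_smul_atImInfty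
  show ((triMat A D B : GL (Fin 2) ℝ) : Matrix (Fin 2) (Fin 2) ℝ) 1 0 = 0
  rw [val_triMat hA hD]
  simp

/-- `τ ↦ f (N τ)`. -/
def raise (N : ℕ) (f : ℍ → ℂ) : ℍ → ℂ := fun τ => f (heckeDiagMatrix N • τ)

lemma raise_apply (N : ℕ) (f : ℍ → ℂ) (τ : ℍ) : raise N f τ = f (heckeDiagMatrix N • τ) := rfl

lemma raise_eq (k : ℤ) {N : ℕ} (hN : N ≠ 0) (f : ℍ → ℂ) :
    raise N f = ((N : ℂ) ^ (k - 1))⁻¹ • (f ∣[k] heckeDiagMatrix N) := by
  have hN' : (N : ℂ) ≠ 0 := by exact_mod_cast hN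
  funext τ
  rw [Pi.smul_apply, slash_heckeDiagMatrix_apply k hN, smul_eq_mul, ← mul_assoc,
    inv_mul_cancel₀ (zpow_ne_zero _ hN'), one_mul, raise_apply]

lemma raise_mdiff {N : ℕ} (hN : N ≠ 0) {f : ℍ → ℂ} (hf : MDiff f) : MDiff (raise N f) := by
  rw [raise_eq 0 hN]
  exact (hf.slash 0 _).const_smul _

/-- slash of a raised level one form. -/
lemma raise_slash_eq (k : ℤ) {N : ℕ} (hN : N ≠ 0) {f : ℍ → ℂ} (hf : ∀ γ : SL(2, ℤ), f ∣[k] γ = f)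
    (γ : SL(2, ℤ)) :
    ∃ (A D : ℕ) (B : ℤ), A * D = N ∧ A = Int.gcd N (γ 1 0) ∧
      (raise N f) ∣[k] γ = ((N : ℂ) ^ (k - 1))⁻¹ • (f ∣[k] triMat A D B) := by
  obtain ⟨A, D, B, γ', hAD, hA, h⟩ := exists_decomp N hN γ
  refine ⟨A, D, B, hAD, hA, ?_⟩
  rw [raise_eq k hN, SL_smul_slash, SL_slash, ← SlashAction.slash_mul, h, SlashAction.slash_mul,
    ← SL_slash, hf]

lemma raise_slash_apply (k : ℤ) {N : ℕ} (hN : N ≠ 0) {f : ℍ → ℂ}
    (hf : ∀ γ : SL(2, ℤ), f ∣[k] γ = f) (γ : SL(2, ℤ)) :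
    ∃ (A D : ℕ) (B : ℤ), A * D = N ∧ A = Int.gcd N (γ 1 0) ∧
      ∀ τ, ((raise N f) ∣[k] γ) τ = (D : ℂ) ^ (-k) * f (triMat A D B • τ) := by
  obtain ⟨A, D, B, hAD, hA, h⟩ := raise_slash_eq k hN hf γ
  have hA0 : A ≠ 0 := by rintro rfl; simp at hAD; exact hN hAD.symm
  have hD0 : D ≠ 0 := by rintro rfl; simp at hAD; exact hN hAD.symm
  have hN' : (N : ℂ) ≠ 0 := by exact_mod_cast hN
  refine ⟨A, D, B, hAD, hA, fun τ => ?_⟩
  rw [h, Pi.smul_apply, slash_triMat_apply k hA0 hD0, smul_eq_mul]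
  have : (A : ℂ) * D = N := by exact_mod_cast hAD
  rw [this, ← mul_assoc, ← mul_assoc, inv_mul_cancel₀ (zpow_ne_zero _ hN'), one_mul]

lemma raise_slash_bdd (k : ℤ) {N : ℕ} (hN : N ≠ 0) {f : ℍ → ℂ}
    (hf : ∀ γ : SL(2, ℤ), f ∣[k] γ = f) (hb : IsBoundedAtImInfty f) (γ : SL(2, ℤ)) :
    IsBoundedAtImInfty ((raise N f) ∣[k] γ) := by
  obtain ⟨A, D, B, hAD, -, h⟩ := raise_slash_apply k hN hf γ
  have hA0 : A ≠ 0 := by rintro rfl; simp at hAD; exact hN hAD.symm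
  have hD0 : D ≠ 0 := by rintro rfl; simp at hAD; exact hN hAD.symm
  have h1 : IsBoundedAtImInfty (fun τ : ℍ => f (triMat A D B • τ)) :=
    Asymptotics.IsBigO.comp_tendsto hb (tendsto_triMat_smul hA0 hD0 B)
  have h2 : (raise N f) ∣[k] γ = (D : ℂ) ^ (-k) • (fun τ : ℍ => f (triMat A D B • τ)) := by
    funext τ; rw [h]; rfl
  rw [h2]
  exact h1.const_smul_left _

lemma raise_slash_tendsto (k : ℤ) {N : ℕ} (hN : N ≠ 0) {f : ℍ → ℂ}
    (hf : ∀ γ : SL(2, ℤ), f ∣[k] γ = f) {L : ℂ} (hL : Tendsto f atImInfty (𝓝 L)) (γ : SL(2, ℤ)) :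
    ∃ (A D : ℕ), A * D = N ∧ A = Int.gcd N (γ 1 0) ∧
      Tendsto ((raise N f) ∣[k] γ) atImInfty (𝓝 ((D : ℂ) ^ (-k) * L)) := by
  obtain ⟨A, D, B, hAD, hA, h⟩ := raise_slash_apply k hN hf γ
  have hA0 : A ≠ 0 := by rintro rfl; simp at hAD; exact hN hAD.symm
  have hD0 : D ≠ 0 := by rintro rfl; simp at hAD; exact hN hAD.symm
  refine ⟨A, D, hAD, hA, ?_⟩
  have h2 : (raise N f) ∣[k] γ = (fun τ : ℍ => (D : ℂ) ^ (-k) * f (triMat A D B • τ)) := by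
    funext τ; rw [h]
  rw [h2]
  exact (hL.comp (tendsto_triMat_smul hA0 hD0 B)).const_mul _

lemma raise_tendsto {N : ℕ} (hN : N ≠ 0) {f : ℍ → ℂ} {L : ℂ} (hL : Tendsto f atImInfty (𝓝 L)) :
    Tendsto (raise N f) atImInfty (𝓝 L) := by
  refine hL.comp (tendsto_smul_atImInfty ?_)
  show ((heckeDiagMatrix N : GL (Fin 2) ℝ) : Matrix (Fin 2) (Fin 2) ℝ) 1 0 = 0
  rw [val_heckeDiagMatrix hN]
  simp


lemma triMat_one_eq {N : ℕ} (hN : N ≠ 0) (B : ℤ) :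
    ∃ g : SL(2, ℤ), triMat N 1 B = (g : GL (Fin 2) ℝ) * heckeDiagMatrix N := by
  obtain ⟨g, e00, e01, e10, e11⟩ : ∃ g : SL(2, ℤ), g 0 0 = 1 ∧ g 0 1 = B ∧ g 1 0 = 0 ∧
      g 1 1 = 1 :=
    ⟨⟨!![1, B; 0, 1], by rw [Matrix.det_fin_two_of]; ring⟩, rfl, rfl, rfl, rfl⟩
  refine ⟨g, ?_⟩
  apply Units.ext
  rw [Units.val_mul, val_heckeDiagMatrix hN, val_triMat hN one_ne_zero]
  ext i j
  fin_cases i <;> fin_cases j <;>
    simp [Matrix.mul_apply, Fin.sum_univ_two, e00, e01, e10, e11]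

lemma raise_slash_of_mem (k : ℤ) {N : ℕ} (hN : N ≠ 0) {f : ℍ → ℂ}
    (hf : ∀ γ : SL(2, ℤ), f ∣[k] γ = f) {γ : SL(2, ℤ)} (hγ : γ ∈ Gamma0 N) :
    (raise N f) ∣[k] γ = raise N f := by
  obtain ⟨A, D, B, hAD, hA, h⟩ := raise_slash_eq k hN hf γ
  rw [Gamma0_mem, ZMod.intCast_zmod_eq_zero_iff_dvd] at hγ
  have hAN : A = N := by
    rw [hA]
    exact Int.gcd_eq_natAbs_left hγ
  have hD : D = 1 := by
    rw [hAN] at hAD
    exact Nat.eq_of_mul_eq_mul_left (Nat.pos_of_ne_zero hN) (by rw [hAD, mul_one])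
  obtain ⟨g, hg⟩ := triMat_one_eq hN B
  rw [h, hAN, hD, hg, SlashAction.slash_mul, ← SL_slash, hf, ← raise_eq k hN]

lemma mem_Gamma0_of_raise_slash_eq {k : ℤ} (hk : k ≠ 0) {N : ℕ} (hN : N ≠ 0) {f : ℍ → ℂ}
    (hf : ∀ γ : SL(2, ℤ), f ∣[k] γ = f) {L : ℂ} (hL : Tendsto f atImInfty (𝓝 L)) (hL0 : L ≠ 0)
    {γ : SL(2, ℤ)} (hγ : (raise N f) ∣[k] γ = raise N f) : γ ∈ Gamma0 N := by
  obtain ⟨A, D, hAD, hA, h⟩ := raise_slash_tendsto k hN hf hL γ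
  rw [hγ] at h
  have h1 : (D : ℂ) ^ (-k) * L = L := tendsto_nhds_unique h (raise_tendsto hN hL)
  have h2 : (D : ℂ) ^ (-k) = 1 := mul_right_cancel₀ hL0 (by rw [h1, one_mul])
  have hD0 : D ≠ 0 := by rintro rfl; simp at hAD; exact hN hAD.symm
  have h3 : ((D : ℝ)) ^ (-k) = 1 := by
    have := congrArg norm h2
    rwa [norm_zpow, Complex.norm_natCast, norm_one] at this
  have hD : D = 1 := by
    have h4 : (0 : ℝ) < D := by exact_mod_cast Nat.pos_of_ne_zero hD0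
    by_contra hne
    have hne' : (D : ℝ) ≠ 1 := by exact_mod_cast hne
    exact (neg_ne_zero.mpr hk) ((zpow_eq_one_iff_right₀ h4.le hne').mp h3)
  rw [hD, mul_one] at hAD
  rw [Gamma0_mem, ZMod.intCast_zmod_eq_zero_iff_dvd, ← hAD, hA]
  exact Int.gcd_dvd_right _ _


local notation "𝕢" => Function.Periodic.qParam

lemma qParam_heckeDiag_smul {N : ℕ} (hN : N ≠ 0) (τ : ℍ) :
    𝕢 1 ((heckeDiagMatrix N • τ : ℍ) : ℂ) = 𝕢 1 (τ : ℂ) ^ N := by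
  rw [coe_heckeDiagMatrix_smul hN, Function.Periodic.qParam, Function.Periodic.qParam,
    ← Complex.exp_nat_mul]
  congr 1
  ring

lemma raise_hasSum {N : ℕ} (hN : N ≠ 0) {f : ℍ → ℂ} {a : ℕ → ℂ}
    (hf : ∀ τ : ℍ, HasSum (fun m ↦ a m • 𝕢 1 (τ : ℂ) ^ m) (f τ)) (τ : ℍ) :
    HasSum (fun m ↦ (if N ∣ m then a (m / N) else 0) • 𝕢 1 (τ : ℂ) ^ m) (raise N f τ) := by
  have h := hf (heckeDiagMatrix N • τ)
  rw [qParam_heckeDiag_smul hN] at h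
  have hinj : Function.Injective (fun n : ℕ => N * n) :=
    fun x y hxy => Nat.eq_of_mul_eq_mul_left (Nat.pos_of_ne_zero hN) hxy
  rw [← hinj.hasSum_iff, raise_apply]
  · convert h using 2 with n
    simp [Function.comp, Nat.mul_div_cancel_left _ (Nat.pos_of_ne_zero hN), pow_mul]
  · intro m hm
    have : ¬ N ∣ m := by
      rintro ⟨n, rfl⟩
      exact hm ⟨n, rfl⟩
    simp [this]

end

end Fermat.Agent.LevelRaise
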